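import Fermat.Agent.RIB.Main.Defs

/-!
# RIB / Up / Vanish : [VANISH-UP]

`W(L) = 0 ⟹ W(L l²) = 0`, from (CTRL-surj) and (RHO) (`I_l` acts on the `θ`-part through elements of `p`-power order), and the
iteration along the tower `lvl L₀ l`.  This is the input `W(L') = 0` of (KEY) at the top level `L = L' q`,
`L' = lvl ((M / q) * 4) l t`, starting from the minimality of `M` (`W((M / q) * 4) = 0`).
-/

set_option autoImplicit false
set_option linter.unusedSectionVars false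

noncomputable section

open AlgebraicCurve ModularCurve

namespace Fermat.Agent.RIB

local notation "Qbar" => AlgebraicClosure ℚ
local notation "GQ" => (AlgebraicClosure ℚ ≃ₐ[ℚ] AlgebraicClosure ℚ)

variable {p : ℕ} {S : Set ℕ} {θ : ℕ → ℤ}

/-- a `p`-primary group without `p`-torsion is trivial : `W(L) = 0 ⟹` the whole `θ`-part vanishes. -/
theorem thetaPart_eq_bot_of_WS_eq_bot {L : ℕ} [NeZero L] (h : WS L p S θ = ⊥) :
    thetaPart L p S θ = ⊥ := by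
  rw [eq_bot_iff]
  intro x hx
  obtain ⟨k, hk⟩ := hx.1
  rw [AddSubgroup.mem_bot]
  induction k generalizing x with
  | zero => simpa using hk
  | succ k ih =>
    refine ih hx ?_
    have h1 : p ^ k • x ∈ WS L p S θ :=
      ⟨(thetaPart L p S θ).nsmul_mem hx _, by rw [← mul_nsmul', ← pow_succ']; exact hk⟩
    rw [h, AddSubgroup.mem_bot] at h1
    exact h1

/-- a subgroup `H` of `G_ℚ` all of whose elements act with `p`-power order on `W(L) ≠ 0` has a nonzero fixed vector. -/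
theorem exists_fixed_ne_zero_WS [Fact p.Prime] {L : ℕ} [NeZero L] (H : Subgroup GQ)
    (hH : ∀ τ ∈ H, ∃ n : ℕ, ∀ x ∈ WS L p S θ, τ ^ (p ^ n) • x = x) (h : WS L p S θ ≠ ⊥) :
    ∃ x ∈ WS L p S θ, x ≠ 0 ∧ ∀ τ ∈ H, τ • x = x := by
  classical
  have : NeZero p := ⟨(Fact.out : p.Prime).ne_zero⟩
  -- the image of `H` in the permutations of `W`
  let f : ↥H →* Equiv.Perm ↥(WS L p S θ) :=
    (MulAction.toPermHom GQ ↥(WS L p S θ)).comp H.subtype
  have hf : ∀ (τ : ↥H) (x : ↥(WS L p S θ)), f τ x = (τ : GQ) • x := fun _ _ => rfl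
  have hP : IsPGroup p ↥f.range := by
    rintro ⟨_, τ, rfl⟩
    obtain ⟨n, hn⟩ := hH τ τ.2
    refine ⟨n, Subtype.ext ?_⟩
    show f τ ^ (p ^ n) = 1
    rw [← map_pow]
    ext x
    rw [hf]
    exact hn x.1 x.2
  have hnt : Nontrivial ↥(WS L p S θ) := (AddSubgroup.nontrivial_iff_ne_bot _).2 h
  have hcard : p ∣ Nat.card ↥(WS L p S θ) := by
    rw [Module.natCard_eq_pow_finrank (K := ZMod p), Nat.card_zmod]
    exact dvd_pow_self p (Module.finrank_pos (R := ZMod p)).ne'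
  have h0 : (0 : ↥(WS L p S θ)) ∈ MulAction.fixedPoints ↥f.range ↥(WS L p S θ) := by
    rintro ⟨_, τ, rfl⟩
    show f τ 0 = 0
    rw [hf, smul_zero]
  obtain ⟨b, hb, hb0⟩ := hP.exists_fixed_point_of_prime_dvd_card_of_fixed_point _ hcard h0
  refine ⟨b.1, b.2, fun hb' => hb0 (Subtype.ext hb'.symm), fun τ hτ => ?_⟩
  have := hb ⟨f ⟨τ, hτ⟩, ⟨τ, hτ⟩, rfl⟩
  exact congrArg Subtype.val this

/-- **[VANISH-UP], one step.** -/
theorem WS_eq_bot_step [Fact p.Prime] {L l : ℕ} [NeZero L] [NeZero l] {A : ValuationSubring Qbar}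
    (hsurj : ∀ x ∈ thetaPart (L * l * l) p S θ, (∀ τ ∈ A.inertiaSubgroupIn ℚ, τ • x = x) →
      ∃ v : Fin 3 → JZero L, (∀ i, v i ∈ thetaPart L p S θ) ∧ iota L l v = x)
    (hrho : ∀ τ ∈ A.inertiaSubgroupIn ℚ, ∃ n : ℕ, ∀ x ∈ WS (L * l * l) p S θ, τ ^ (p ^ n) • x = x)
    (h : WS L p S θ = ⊥) : WS (L * l * l) p S θ = ⊥ := by
  by_contra hne
  obtain ⟨x, hx, hx0, hfix⟩ := exists_fixed_ne_zero_WS (A.inertiaSubgroupIn ℚ) hrho hne
  obtain ⟨v, hv, rfl⟩ := hsurj x hx.1 hfix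
  have hb := thetaPart_eq_bot_of_WS_eq_bot h
  have hv0 : v = 0 := by
    funext i
    have := hv i
    rwa [hb, AddSubgroup.mem_bot] at this
  exact hx0 (by rw [hv0, map_zero])

/-- **[VANISH-UP]** along the tower `lvl L₀ l`. -/
theorem WS_lvl_eq_bot [Fact p.Prime] {L₀ : ℕ} [NeZero L₀] (l : ℕ → ℕ) [∀ i, NeZero (l i)] (r : ℕ)
    (A : ℕ → ValuationSubring Qbar)
    (hsurj : ∀ i < r, ∀ x ∈ thetaPart (lvl L₀ l i * l i * l i) p S θ,
      (∀ τ ∈ (A i).inertiaSubgroupIn ℚ, τ • x = x) →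
      ∃ v : Fin 3 → JZero (lvl L₀ l i), (∀ j, v j ∈ thetaPart (lvl L₀ l i) p S θ) ∧
        iota (lvl L₀ l i) (l i) v = x)
    (hrho : ∀ i < r, ∀ τ ∈ (A i).inertiaSubgroupIn ℚ, ∃ n : ℕ,
      ∀ x ∈ WS (lvl L₀ l i * l i * l i) p S θ, τ ^ (p ^ n) • x = x)
    (h : WS L₀ p S θ = ⊥) : WS (lvl L₀ l r) p S θ = ⊥ := by
  induction r with
  | zero => exact h
  | succ r ih =>
    exact WS_eq_bot_step (hsurj r (Nat.lt_succ_self r)) (hrho r (Nat.lt_succ_self r))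
      (ih (fun i hi => hsurj i (Nat.lt_succ_of_lt hi)) (fun i hi => hrho i (Nat.lt_succ_of_lt hi)))

end Fermat.Agent.RIB
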