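import Fermat.Agent.RIB.Up.Vanish
import Fermat.Agent.RIB.Main.PerLevel
import Fermat.Agent.CFT.LS.Inst

/-!
# RIB / Up / VanishMain : the block statement `vanish` (board #2268) from `ctrl_surj`, `rho_ord` (RIB/Main/PerLevel.lean)
-/

set_option autoImplicit false
set_option linter.unusedSectionVars false

noncomputable section

open AlgebraicCurve ModularCurve

namespace Fermat.Agent.RIB

local notation "Qbar" => AlgebraicClosure ℚ
local notation "GQ" => (AlgebraicClosure ℚ ≃ₐ[ℚ] AlgebraicClosure ℚ)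
local notation "M₂" => Matrix (Fin 2) (Fin 2)

variable {p : ℕ} [Fact p.Prime] {T : Finset ℕ} {θ : ℕ → ℤ} {rbar0 : GQ →* M₂ (ZMod p)}
  {L₀ t n : ℕ} [NeZero L₀] {qv : Fin t → Nat.Primes}

/-- a place over `extP qv i` (`i < t`). -/
def plcP (qv : Fin t → Nat.Primes) (i : ℕ) : ValuationSubring Qbar :=
  if h : i < t then ExtCitation.primeLocalPlace (qv ⟨i, h⟩) else ⊤

theorem plcP_liesOver (qv : Fin t → Nat.Primes) {i : ℕ} (hi : i < t) :
    (plcP qv i).LiesOverPrime (extP qv i) := by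
  rw [plcP, dif_pos hi, extP_of_lt qv ⟨i, hi⟩]
  exact CFT.LS.liesOverPrime_primeLocalPlace _

/-- **(B2, VANISH)** : same statement as `RIB.vanish` (RIB/Main/Blocks.lean). -/
theorem vanish' (EC : ECtx p T θ rbar0) (TC : TWCtx p T θ L₀ t n qv)
    (h : WS L₀ p (↑(cutS T qv) : Set ℕ) θ = ⊥) :
    WS (lvl L₀ (extP qv) t) p (↑(cutS T qv) : Set ℕ) θ = ⊥ :=
  WS_lvl_eq_bot (extP qv) t (plcP qv)
    (fun i hi => ctrl_surj EC (TC.step EC.p_mem hi) (plcP_liesOver qv hi))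
    (fun i hi τ hτ => ⟨nuP p qv ⟨i, hi⟩, fun x hx =>
      rho_ord EC (TC.step EC.p_mem hi) (plcP_liesOver qv hi) τ hτ x hx.1⟩) h

end Fermat.Agent.RIB
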